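import Fermat.Agent.DynamicalMordellLang.Padic
import Fermat.Agent.SkolemMahlerLech.Embedding
import Mathlib.RingTheory.Polynomial.Basic
import Mathlib.RingTheory.Noetherian.Basic

/-!
# The dynamical Mordell–Lang theorem for étale endomorphisms of affine space

The coefficients, the point and the inverse determinant are `p`-adic integers under an embedding of
a subring, which reduces the theorem to `ℤ_p`.
-/

set_option autoImplicit false

noncomputable section

open MvPolynomial Finset

namespace FA.DynamicalMordellLang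

variable {σ : Type*} [Fintype σ] [DecidableEq σ] {K : Type*} [Field K]

omit [Fintype σ] [DecidableEq σ] in
theorem map_iterate_evalMap {R S : Type*} [CommRing R] [CommRing S] (φ : R →+* S)
    (f : σ → MvPolynomial σ R) (x : σ → R) (m : ℕ) :
    φ ∘ (evalMap f)^[m] x = (evalMap fun i => map φ (f i))^[m] (φ ∘ x) := by
  induction m with
  | zero => rfl
  | succ m ih =>
    rw [Function.iterate_succ_apply', Function.iterate_succ_apply', ← ih]
    funext i
    show φ (eval _ (f i)) = eval _ (map φ (f i))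
    rw [eval_map, ← eval₂_id, eval₂_comp_left, RingHom.comp_id]

omit [Fintype σ] [DecidableEq σ] in
theorem map_eval_iterate {R S : Type*} [CommRing R] [CommRing S] (φ : R →+* S)
    (f : σ → MvPolynomial σ R) (x : σ → R) (m : ℕ) (F : MvPolynomial σ R) :
    φ (eval ((evalMap f)^[m] x) F) =
      eval ((evalMap fun i => map φ (f i))^[m] (φ ∘ x)) (map φ F) := by
  rw [← map_iterate_evalMap, eval_map, ← eval₂_id, eval₂_comp_left, RingHom.comp_id]

/-- The `p`-adic integral part of a subfield. -/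
theorem exists_subring [CharZero K] (T : Finset K) :
    ∃ (p : ℕ) (_ : Fact p.Prime) (O : Subring K) (ψ : O →+* ℤ_[p]),
      p ≠ 2 ∧ Function.Injective ψ ∧ ∀ x ∈ T, x ∈ O := by
  obtain ⟨p, hp, hp2, L, φ, hT⟩ := SkolemMahlerLech.exists_padic_embedding T
  haveI := hp
  refine ⟨p, hp, ((PadicInt.subring p).comap φ).map L.subtype, ?_⟩
  let e := ((PadicInt.subring p).comap φ).equivMapOfInjective L.subtype Subtype.val_injective
  refine ⟨((φ.comp ((PadicInt.subring p).comap φ).subtype).codRestrict (PadicInt.subring p)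
    fun z => z.2).comp e.symm.toRingHom, hp2, fun a b h => ?_, fun x hx => ?_⟩
  · exact e.symm.injective (Subtype.ext (φ.injective (congrArg Subtype.val h)))
  · obtain ⟨h, hn⟩ := hT x hx
    exact ⟨⟨x, h⟩, hn, rfl⟩

/-- **Periodicity for one `N`**: the classes modulo `N` meet the common zeros of finitely many
polynomials finitely often or always. -/
theorem exists_period_field [CharZero K] {f : σ → MvPolynomial σ K} {c : K} (hc : c ≠ 0)
    (hdet : (Matrix.of fun i l => pderiv l (f i)).det = C c) (x : σ → K)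
    (T : Finset (MvPolynomial σ K)) :
    ∃ M N : ℕ, 0 < N ∧ ∀ r,
      {m | ∀ F ∈ T, eval ((evalMap f)^[M + r + N * m] x) F = 0}.Finite ∨
        ∀ m, ∀ F ∈ T, eval ((evalMap f)^[M + r + N * m] x) F = 0 := by
  classical
  obtain ⟨p, hp, O, ψ, hp2, hψ, hO⟩ := exists_subring (insert c (insert c⁻¹ (univ.image x ∪
    (univ.biUnion fun i => (f i).support.image fun d => coeff d (f i)) ∪
      T.biUnion fun F => F.support.image fun d => coeff d F)))
  haveI := hp
  have hlift : ∀ F : MvPolynomial σ K, (∀ d ∈ F.support, coeff d F ∈ O) →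
      ∃ F₀ : MvPolynomial σ O, map O.subtype F₀ = F := fun F hF =>
    RingHom.mem_range.1 (mem_range_map_iff_coeffs_subset.2 fun a ha => by
      obtain ⟨d, hd, rfl⟩ := mem_coeffs_iff.1 (Finset.mem_coe.1 ha)
      exact ⟨⟨_, hF d hd⟩, rfl⟩)
  choose f₀ hf₀ using fun i => hlift (f i) fun d hd => hO _ (by
    simp only [mem_insert, mem_union, mem_biUnion, mem_image]
    exact Or.inr (Or.inr (Or.inl (Or.inr ⟨i, mem_univ i, d, hd, rfl⟩))))
  choose G₀ hG₀ using fun F : T => hlift F fun d hd => hO _ (by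
    simp only [mem_insert, mem_union, mem_biUnion, mem_image]
    exact Or.inr (Or.inr (Or.inr ⟨F, F.2, d, hd, rfl⟩)))
  have hxO : ∀ i, x i ∈ O := fun i => hO _ (by simp)
  set x₀ : σ → O := fun i => ⟨x i, hxO i⟩
  have hcO : c ∈ O := hO _ (by simp)
  have hdet₀ : (Matrix.of fun i l => pderiv l (f₀ i)).det = C ⟨c, hcO⟩ := by
    refine map_injective O.subtype Subtype.val_injective ?_
    rw [RingHom.map_det, map_C, show O.subtype ⟨c, hcO⟩ = c from rfl, ← hdet]
    congr 1
    ext1 i l
    simp [← pderiv_map, hf₀]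
  set f₁ : σ → MvPolynomial σ ℤ_[p] := fun i => map ψ (f₀ i)
  have hjac : ∀ b, IsUnit (jac f₁ b).det := fun b => by
    have e : jac f₁ b = ((eval b).comp (map ψ)).mapMatrix
        (Matrix.of fun i l => pderiv l (f₀ i)) := by
      ext i l
      simp [jac, f₁, pderiv_map]
    rw [e, ← RingHom.map_det, hdet₀, RingHom.comp_apply, map_C, eval_C]
    refine IsUnit.map ψ (IsUnit.of_mul_eq_one ⟨c⁻¹, hO _ (by simp)⟩ ?_)
    exact Subtype.ext (mul_inv_cancel₀ hc)
  obtain ⟨M, N, hN, h⟩ := exists_period hp2 hjac (ψ ∘ x₀)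
  refine ⟨M, N, hN, fun r => ?_⟩
  have key : ∀ (F : T) (n : ℕ), eval ((evalMap f)^[n] x) (F : MvPolynomial σ K) = 0 ↔
      eval ((evalMap f₁)^[n] (ψ ∘ x₀)) (map ψ (G₀ F)) = 0 := by
    intro F n
    rw [← map_eval_iterate ψ, map_eq_zero_iff ψ hψ,
      ← map_eq_zero_iff O.subtype Subtype.val_injective,
      map_eval_iterate, hG₀, funext hf₀]
    rfl
  by_cases hall : ∀ F : T, ∀ m, eval ((evalMap f₁)^[M + r + N * m] (ψ ∘ x₀)) (map ψ (G₀ F)) = 0
  · exact Or.inr fun m F hF => (key ⟨F, hF⟩ _).2 (hall ⟨F, hF⟩ m)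
  · push Not at hall
    obtain ⟨F, m, hm⟩ := hall
    exact Or.inl (((h r (map ψ (G₀ F))).resolve_right fun h' => hm (h' m)).subset
      fun m hm => (key F _).1 (hm F F.2))

/-- **The dynamical Mordell–Lang theorem.** -/
theorem eventually_periodic [CharZero K] {f : σ → MvPolynomial σ K} {c : K} (hc : c ≠ 0)
    (hdet : (Matrix.of fun i l => pderiv l (f i)).det = C c) (x : σ → K)
    (V : Set (MvPolynomial σ K)) :
    ∃ N M : ℕ, 0 < N ∧ ∀ n, M ≤ n →
      ((∀ F ∈ V, eval ((evalMap f)^[n] x) F = 0) ↔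
        ∀ F ∈ V, eval ((evalMap f)^[n + N] x) F = 0) := by
  classical
  obtain ⟨T, hTV, hT⟩ := (Submodule.fg_span_iff_fg_span_finset_subset V).1
    (IsNoetherian.noetherian (Ideal.span V))
  have hiff : ∀ y : σ → K, (∀ F ∈ V, eval y F = 0) ↔ ∀ F ∈ T, eval y F = 0 := fun y =>
    ⟨fun h F hF => h F (hTV hF), fun h F hF => RingHom.mem_ker.1
      ((Submodule.span_le (p := RingHom.ker (eval y))).2 (fun G hG => RingHom.mem_ker.2 (h G hG))
        (hT ▸ Submodule.subset_span hF))⟩
  obtain ⟨M, N, hN, h⟩ := exists_period_field hc hdet x T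
  have hbound : ∀ r, ∃ B,
      (∀ m, B ≤ m → ¬∀ F ∈ T, eval ((evalMap f)^[M + r + N * m] x) F = 0) ∨
        ∀ m, ∀ F ∈ T, eval ((evalMap f)^[M + r + N * m] x) F = 0 := fun r =>
    (h r).elim (fun hfin => ⟨hfin.toFinset.sup id + 1, Or.inl fun m hm h0 => absurd
      (le_sup (f := id) (hfin.mem_toFinset.2 h0)) (not_le.2 hm)⟩) fun h => ⟨0, Or.inr h⟩
  choose B hB using hbound
  refine ⟨N, M + N * ((range N).sup B + 1), hN, fun n hn => ?_⟩
  obtain ⟨d, rfl⟩ := Nat.exists_eq_add_of_le (show M ≤ n by omega)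
  have hr : d % N < N := Nat.mod_lt _ hN
  have hm : B (d % N) ≤ d / N := ((le_sup (mem_range.2 hr)).trans (Nat.le_succ _)).trans
    ((Nat.le_div_iff_mul_le hN).2 (by rw [mul_comm, Nat.succ_eq_add_one]; omega))
  rw [hiff, hiff, show M + d + N = M + d % N + N * (d / N + 1) by
      rw [mul_add, mul_one]; have := Nat.mod_add_div d N; omega,
    show M + d = M + d % N + N * (d / N) by have := Nat.mod_add_div d N; omega]
  rcases hB (d % N) with h | h
  · exact iff_of_false (h _ hm) (h _ (hm.trans (Nat.le_succ _)))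
  · exact iff_of_true (h _) (h _)

end FA.DynamicalMordellLang

end
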