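import Fermat.Agent.SkolemMahlerLech.PadicZeros
import Mathlib.Algebra.MvPolynomial.PDeriv
import Mathlib.Algebra.MvPolynomial.Monad
import Mathlib.GroupTheory.OrderOfElement
import Mathlib.Data.Fintype.Perm

/-!
# Orbits of polynomial maps over `ℤ_p`

If the Jacobian determinant of `f` is a unit then on a periodic residue disc a power of `f` is
congruent to the identity, and then `Φ ↦ Φ ∘ g - Φ` maps polynomials into `p` times polynomials, so
the values along the orbit have finitely many zeros or vanish.
-/

set_option autoImplicit false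

noncomputable section

open MvPolynomial Finset

namespace FA.DynamicalMordellLang

variable {σ : Type*} {R : Type*} [CommRing R]

/-- A polynomial map as a function. -/
def evalMap (f : σ → MvPolynomial σ R) (x : σ → R) : σ → R := fun i => eval x (f i)

/-- The iterates of a polynomial map. -/
def iterMap (f : σ → MvPolynomial σ R) : ℕ → σ → MvPolynomial σ R
  | 0 => X
  | k + 1 => fun i => bind₁ (iterMap f k) (f i)

/-- The Jacobian matrix at a point. -/
def jac (f : σ → MvPolynomial σ R) (b : σ → R) : Matrix σ σ R :=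
  Matrix.of fun i l => eval b (pderiv l (f i))

theorem eval_bind₁_eq (g : σ → MvPolynomial σ R) (x : σ → R) (Φ : MvPolynomial σ R) :
    eval x (bind₁ g Φ) = eval (evalMap g x) Φ :=
  eval₂Hom_bind₁ (RingHom.id R) x g Φ

theorem eval_iterMap (f : σ → MvPolynomial σ R) (k : ℕ) (x : σ → R) :
    evalMap (iterMap f k) x = (evalMap f)^[k] x := by
  induction k with
  | zero => funext i; simp [iterMap, evalMap]
  | succ k ih =>
    rw [Function.iterate_succ_apply', ← ih]
    funext i
    exact eval_bind₁_eq _ x (f i)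

/-- The affine substitution `X ↦ a + π Z`. -/
def disc (π : R) (a : σ → R) (Z : σ → MvPolynomial σ R) : σ → MvPolynomial σ R :=
  fun i => C (a i) + C π * Z i

variable [Fintype σ] [DecidableEq σ]

/-- **Linearization** on a small disc. -/
theorem exists_linearization (π : R) (b : σ → R) (Z : σ → MvPolynomial σ R)
    (Φ : MvPolynomial σ R) :
    ∃ E, bind₁ (disc π b Z) Φ =
      C (eval b Φ) + C π * ∑ l, C (eval b (pderiv l Φ)) * Z l + C π * C π * E := by
  induction Φ using MvPolynomial.induction_on with
  | C r => exact ⟨0, by simp⟩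
  | add A B hA hB =>
    obtain ⟨E, hE⟩ := hA
    obtain ⟨F, hF⟩ := hB
    refine ⟨E + F, ?_⟩
    simp only [map_add, hE, hF, add_mul, sum_add_distrib]
    ring
  | mul_X A j hA =>
    obtain ⟨E, hE⟩ := hA
    refine ⟨E * disc π b Z j + (∑ l, C (eval b (pderiv l A)) * Z l) * Z j, ?_⟩
    have e : ∑ l, C (eval b (pderiv l (A * X j))) * Z l =
        C (b j) * ∑ l, C (eval b (pderiv l A)) * Z l + C (eval b A) * Z j := by
      simp [pderiv_mul, pderiv_X, Pi.single_apply, add_mul, sum_add_distrib, mul_sum, ite_mul,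
        apply_ite (eval b), apply_ite (C : R → MvPolynomial σ R)]
      rw [add_comm]
      simp only [mul_assoc]
    rw [map_mul, hE, bind₁_X_right, map_mul (eval b), eval_X, map_mul C, e]
    simp only [disc]
    ring

variable {p : ℕ} [hp : Fact p.Prime]

omit [Fintype σ] [DecidableEq σ] in
/-- **Interpolation**: along the iterates of a map congruent to the identity a polynomial vanishes
finitely often or always. -/
theorem finite_or_forall_of_congr_id (hp2 : p ≠ 2) {g : σ → MvPolynomial σ ℤ_[p]}
    (hg : ∀ i, map PadicInt.toZMod (g i) = X i) (y : σ → ℤ_[p]) (Φ : MvPolynomial σ ℤ_[p]) :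
    {m | eval ((evalMap g)^[m] y) Φ = 0}.Finite ∨ ∀ m, eval ((evalMap g)^[m] y) Φ = 0 := by
  classical
  set D : Module.End ℤ_[p] (MvPolynomial σ ℤ_[p]) := (bind₁ g).toLinearMap - 1 with hD
  have hone : ∀ Ψ, ∃ E, D Ψ = C (p : ℤ_[p]) * E := fun Ψ => by
    have h1 : map PadicInt.toZMod (bind₁ g Ψ) = map PadicInt.toZMod Ψ := by
      rw [map_bind₁, show (fun i => map PadicInt.toZMod (g i)) = X from funext hg, bind₁_X_left,
        AlgHom.id_apply]
    have : ∃ E, bind₁ g Ψ - Ψ = C (p : ℤ_[p]) * E := by
      refine (C_dvd_iff_map_hom_eq_zero (σ := σ) PadicInt.toZMod (p : ℤ_[p]) (fun r => ?_) _).2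
        (by rw [map_sub, h1, sub_self])
      rw [← RingHom.mem_ker, PadicInt.ker_toZMod, PadicInt.maximalIdeal_eq_span_p,
        Ideal.mem_span_singleton]
    simpa [hD] using this
  have hpow : ∀ i : ℕ, ∃ B, (D ^ i) Φ = C ((p : ℤ_[p]) ^ i) * B := by
    intro i
    induction i with
    | zero => exact ⟨Φ, by simp⟩
    | succ i ih =>
      obtain ⟨B, hB⟩ := ih
      obtain ⟨E, hE⟩ := hone B
      refine ⟨E, ?_⟩
      rw [pow_succ', Module.End.mul_apply, hB, C_mul', map_smul, hE, ← C_mul', ← mul_assoc,
        ← map_mul, ← pow_succ]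
  choose B hB using hpow
  have hu : ∀ m, eval ((evalMap g)^[m] y) Φ =
      ∑ i ∈ range (m + 1), (m.choose i : ℤ_[p]) * ((p : ℤ_[p]) ^ i * eval y (B i)) := by
    intro m
    have e : ((D + 1) ^ m) Φ = (bind₁ g)^[m] Φ := by
      rw [Module.End.pow_apply, show (D + 1 : Module.End ℤ_[p] _) = (bind₁ g).toLinearMap by
        rw [hD, sub_add_cancel]]
      rfl
    have e2 : ∀ Ψ, eval y ((bind₁ g)^[m] Ψ) = eval ((evalMap g)^[m] y) Ψ := by
      clear e
      induction m with
      | zero => simp
      | succ m ih =>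
        intro Ψ
        rw [Function.iterate_succ_apply, ih, eval_bind₁_eq, Function.iterate_succ_apply']
    rw [← e2, ← e, (Commute.one_right D).add_pow, LinearMap.sum_apply, map_sum]
    refine sum_congr rfl fun i _ => ?_
    rw [one_pow, mul_one, ← nsmul_eq_mul', LinearMap.smul_apply, map_nsmul, hB, map_mul, eval_C,
      nsmul_eq_mul]
  by_cases h : ∃ i, eval y (B i) ≠ 0
  · exact Or.inl (SkolemMahlerLech.finite_zeros hp2 hu h)
  · push Not at h
    exact Or.inr fun m => by rw [hu]; simp [h]

/-- Iterates of `f` on the disc around a point are linear modulo `p`. -/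
theorem exists_iter_linear {f : σ → MvPolynomial σ ℤ_[p]} (hf : ∀ b, IsUnit (jac f b).det)
    (a : σ → ℤ_[p]) (k : ℕ) :
    ∃ (J : Matrix σ σ ℤ_[p]) (E : σ → MvPolynomial σ ℤ_[p]), IsUnit J.det ∧ ∀ i,
      bind₁ (disc (p : ℤ_[p]) a X) (iterMap f k i) = C ((evalMap f)^[k] a i) +
        C (p : ℤ_[p]) * ((∑ l, C (J i l) * X l) + C (p : ℤ_[p]) * E i) := by
  induction k with
  | zero =>
    refine ⟨1, 0, by simp, fun i => ?_⟩
    simp [iterMap, disc, Matrix.one_apply, apply_ite (C : ℤ_[p] → MvPolynomial σ ℤ_[p]), ite_mul]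
  | succ k ih =>
    obtain ⟨J, E, hJ, hE⟩ := ih
    set b := (evalMap f)^[k] a
    set Z : σ → MvPolynomial σ ℤ_[p] := fun i => (∑ l, C (J i l) * X l) + C (p : ℤ_[p]) * E i
      with hZ
    choose E' hE' using fun i => exists_linearization (p : ℤ_[p]) b Z (f i)
    refine ⟨jac f b * J, fun i => E' i + ∑ j, C (jac f b i j) * E j,
      by rw [Matrix.det_mul]; exact (hf b).mul hJ, fun i => ?_⟩
    rw [iterMap, bind₁_bind₁, show (fun j => bind₁ (disc (p : ℤ_[p]) a X) (iterMap f k j)) =
      disc (p : ℤ_[p]) b Z from funext hE, hE' i, Function.iterate_succ_apply']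
    have e : ∑ l, C (eval b (pderiv l (f i))) * Z l = (∑ l, C ((jac f b * J) i l) * X l) +
        C (p : ℤ_[p]) * ∑ j, C (jac f b i j) * E j := by
      simp only [hZ, jac, Matrix.of_apply, Matrix.mul_apply, mul_add, sum_add_distrib, mul_sum,
        map_sum, sum_mul, map_mul]
      rw [sum_comm]
      congr 1
      · exact sum_congr rfl fun j _ => sum_congr rfl fun l _ => by ring
      · exact sum_congr rfl fun j _ => by ring
    rw [e]
    simp only [evalMap, b]
    ring

/-- **Periodicity over `ℤ_p`**: one `N` such that along every class modulo `N` a polynomial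
vanishes on the orbit finitely often or always, from some point on. -/
theorem exists_period (hp2 : p ≠ 2) {f : σ → MvPolynomial σ ℤ_[p]}
    (hf : ∀ b, IsUnit (jac f b).det) (x : σ → ℤ_[p]) :
    ∃ M N : ℕ, 0 < N ∧ ∀ r (F : MvPolynomial σ ℤ_[p]),
      {m | eval ((evalMap f)^[M + r + N * m] x) F = 0}.Finite ∨
        ∀ m, eval ((evalMap f)^[M + r + N * m] x) F = 0 := by
  classical
  obtain ⟨M, M', hMM, hrep⟩ := Finite.exists_ne_map_eq_of_infinite
    fun m i => PadicInt.toZMod ((evalMap f)^[m] x i)
  wlog hlt : M < M' generalizing M M'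
  · exact this M' M hMM.symm hrep.symm (lt_of_le_of_ne (not_lt.1 hlt) hMM.symm)
  obtain ⟨k, rfl⟩ := Nat.exists_eq_add_of_le hlt.le
  set a := (evalMap f)^[M] x with ha
  have hak : ∀ i, ∃ e, (evalMap f)^[k] a i = a i + (p : ℤ_[p]) * e := fun i => by
    have h := congrFun hrep i
    rw [show (evalMap f)^[M + k] x = (evalMap f)^[k] a by
      rw [ha, ← Function.iterate_add_apply, add_comm]] at h
    have : (evalMap f)^[k] a i - a i ∈ RingHom.ker (PadicInt.toZMod (p := p)) := by
      rw [RingHom.mem_ker, map_sub, ← h, sub_self]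
    rw [PadicInt.ker_toZMod, PadicInt.maximalIdeal_eq_span_p, Ideal.mem_span_singleton] at this
    obtain ⟨e, he⟩ := this
    exact ⟨e, by rw [← he]; ring⟩
  choose e he using hak
  obtain ⟨J, E, hJ, hE⟩ := exists_iter_linear hf a k
  set G : σ → MvPolynomial σ ℤ_[p] :=
    fun i => C (e i) + ((∑ l, C (J i l) * X l) + C (p : ℤ_[p]) * E i) with hG
  set A : (σ → ℤ_[p]) → σ → ℤ_[p] := fun y => a + (p : ℤ_[p]) • y
  have hdisc : ∀ y, evalMap (disc (p : ℤ_[p]) a X) y = A y := fun y => funext fun i => by
    simp [evalMap, disc, A]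
  have hsemi : Function.Semiconj A (evalMap G) (evalMap f)^[k] := fun y => by
    rw [← hdisc y, ← eval_iterMap]
    funext i
    have h := congrArg (eval y) (hE i)
    rw [eval_bind₁_eq] at h
    simp only [map_add, map_mul, eval_C, he] at h
    show _ = eval _ (iterMap f k i)
    rw [h]
    simp [A, evalMap, hG]
    ring
  -- modulo `p` the map `G` is an affine bijection
  set π := (PadicInt.toZMod : ℤ_[p] →+* ZMod p)
  set Jb := J.map π
  have hJb : IsUnit Jb.det := by
    rw [show Jb = π.mapMatrix J from rfl, ← RingHom.map_det]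
    exact hJ.map π
  set T : (σ → ZMod p) → σ → ZMod p := fun y i => π (e i) + Jb.mulVec y i
  have hTinj : Function.Injective T := fun y z h =>
    Matrix.mulVec_injective_iff_isUnit.2 ((Matrix.isUnit_iff_isUnit_det _).2 hJb)
      (funext fun i => add_left_cancel (congrFun h i))
  set L := orderOf (Equiv.ofBijective T ⟨hTinj, Finite.surjective_of_injective hTinj⟩)
  have hL : 0 < L := orderOf_pos _
  have hTL : T^[L] = id := by
    have h := congrArg (fun q : Equiv.Perm (σ → ZMod p) => ⇑q)
      (pow_orderOf_eq_one (Equiv.ofBijective T ⟨hTinj, Finite.surjective_of_injective hTinj⟩))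
    simp only [Equiv.Perm.coe_pow] at h
    exact h
  have haff : ∀ j, ∃ (Q : Matrix σ σ (ZMod p)) (c : σ → ZMod p),
      (∀ y i, T^[j] y i = c i + Q.mulVec y i) ∧
        ∀ i, map π (iterMap G j i) = C (c i) + ∑ l, C (Q i l) * X l := by
    intro j
    induction j with
    | zero =>
      refine ⟨1, 0, fun y i => by simp, fun i => ?_⟩
      simp [iterMap, Matrix.one_apply, apply_ite (C : ZMod p → MvPolynomial σ (ZMod p)), ite_mul]
    | succ j ih =>
      obtain ⟨Q, c, hy, hpol⟩ := ih
      refine ⟨Jb * Q, fun i => π (e i) + Jb.mulVec c i, fun y i => ?_, fun i => ?_⟩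
      · rw [Function.iterate_succ_apply']
        simp only [T]
        rw [show T^[j] y = c + Q.mulVec y from funext (hy y), Matrix.mulVec_add,
          Matrix.mulVec_mulVec, Pi.add_apply, add_assoc]
      · have hp0 : π (p : ℤ_[p]) = 0 := by simp [π]
        rw [iterMap, map_bind₁, show (fun l => map π (iterMap G j l)) =
          fun l => C (c l) + ∑ m, C (Q l m) * X m from funext hpol]
        simp only [hG, map_add, map_sum, map_mul, MvPolynomial.map_C, MvPolynomial.map_X,
          bind₁_C_right, bind₁_X_right, hp0, map_zero, zero_mul, add_zero, Matrix.mulVec,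
          dotProduct, Matrix.mul_apply, Jb, Matrix.map_apply, mul_add, sum_add_distrib, mul_sum,
          sum_mul]
        rw [add_assoc]
        congr 2
        rw [sum_comm]
        simp only [mul_assoc]
  obtain ⟨Q, c, hy, hpol⟩ := haff L
  have hid : ∀ y i, c i + Q.mulVec y i = y i := fun y i => by rw [← hy, hTL]; rfl
  have hc : c = 0 := funext fun i => by simpa using hid 0 i
  have hQ : Q = 1 := by
    ext i l
    have := hid (Pi.single l 1) i
    simpa [hc, Matrix.one_apply, Pi.single_apply] using this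
  have hgid : ∀ i, map π (iterMap G L i) = X i := fun i => by
    simp [hpol, hc, hQ, Matrix.one_apply, apply_ite (C : ZMod p → MvPolynomial σ (ZMod p)), ite_mul]
  refine ⟨M, k * L, Nat.mul_pos (Nat.pos_of_ne_zero fun h => hMM (by rw [h, add_zero])) hL,
    fun r F => ?_⟩
  have key : ∀ m, eval ((evalMap (iterMap G L))^[m] 0)
      (bind₁ (disc (p : ℤ_[p]) a X) (bind₁ (iterMap f r) F)) =
        eval ((evalMap f)^[M + r + k * L * m] x) F := by
    intro m
    rw [eval_bind₁_eq, hdisc, eval_bind₁_eq, eval_iterMap]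
    have h : (evalMap (iterMap G L))^[m] 0 = (evalMap G)^[L * m] 0 := by
      rw [Function.iterate_mul]
      exact congrArg (fun q => q^[m] 0) (funext (eval_iterMap G L))
    have hA0 : A 0 = a := by simp [A]
    rw [h, (hsemi.iterate_right (L * m)) 0, hA0, ← Function.iterate_mul, ha,
      ← Function.iterate_add_apply, ← Function.iterate_add_apply]
    congr 2
    ring_nf
  rcases finite_or_forall_of_congr_id hp2 hgid 0
    (bind₁ (disc (p : ℤ_[p]) a X) (bind₁ (iterMap f r) F)) with h | h
  · exact Or.inl (by simpa only [key] using h)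
  · exact Or.inr fun m => by simpa only [key] using h m

end FA.DynamicalMordellLang

end
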