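import Fermat.Agent.DynamicalMordellLang.Padic
import Mathlib.FieldTheory.RatFunc.Basic
import Mathlib.Algebra.CharP.Lemmas
import Mathlib.Algebra.CharP.Reduced
import Mathlib.Algebra.CharP.Two
import Mathlib.LinearAlgebra.Matrix.Determinant.Basic
import Mathlib.Tactic.LinearCombination

/-!
# Positive characteristic

Over `𝔽₂(t)` the orbit of `(1, 1)` under `(x, y) ↦ ((1 + t) x, t y)` lies on `x + y = 1` at the
powers of two only.
-/

set_option autoImplicit false

noncomputable section

open MvPolynomial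

namespace FA.DynamicalMordellLang

/-- The variable of `𝔽₂(t)`. -/
abbrev paramT : RatFunc (ZMod 2) := algebraMap (Polynomial (ZMod 2)) _ Polynomial.X

/-- The linear automorphism of the example. -/
def charTwoMap : Fin 2 → MvPolynomial (Fin 2) (RatFunc (ZMod 2)) :=
  ![C (1 + paramT) * X 0, C paramT * X 1]

theorem det_charTwoMap :
    (Matrix.of fun i l => pderiv l (charTwoMap i)).det = C ((1 + paramT) * paramT) := by
  simp [Matrix.det_fin_two, charTwoMap, pderiv_mul, pderiv_X, Pi.single_apply]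

theorem iterate_charTwoMap (n : ℕ) :
    (evalMap charTwoMap)^[n] 1 = ![(1 + paramT) ^ n, paramT ^ n] := by
  induction n with
  | zero => funext i; fin_cases i <;> simp
  | succ n ih =>
    rw [Function.iterate_succ_apply', ih]
    funext i
    fin_cases i <;> simp [evalMap, charTwoMap, pow_succ, mul_comm]

theorem polynomial_add_pow_eq_one_iff (n : ℕ) :
    ((1 + Polynomial.X) ^ n + Polynomial.X ^ n : Polynomial (ZMod 2)) = 1 ↔ ∃ k, n = 2 ^ k := by
  haveI : CharP (Polynomial (ZMod 2)) 2 := inferInstance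
  constructor
  · intro h
    rcases eq_or_ne n 0 with rfl | hn
    · simp at h
    obtain ⟨a, m, hm, rfl⟩ := Nat.exists_eq_two_pow_mul_odd hn
    refine ⟨a, ?_⟩
    rw [mul_comm, pow_mul, pow_mul, ← add_pow_char_pow] at h
    have h1 : ((1 + Polynomial.X) ^ m + Polynomial.X ^ m : Polynomial (ZMod 2)) = 1 :=
      iterateFrobenius_inj (Polynomial (ZMod 2)) 2 a (by simpa [iterateFrobenius_def] using h)
    have h2 := congrArg (Polynomial.coeff · 1) h1
    simp only [Polynomial.coeff_add, Polynomial.coeff_one_add_X_pow, Nat.choose_one_right,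
      Polynomial.coeff_X_pow, Polynomial.coeff_one] at h2
    have hm1 : (m : ZMod 2) = 1 := by
      obtain ⟨j, rfl⟩ := hm
      simp [show (2 : ZMod 2) = 0 from rfl]
    by_contra hne
    rw [if_neg (fun e : 1 = m => hne (by rw [← e, mul_one])), if_neg (by decide), hm1,
      add_zero] at h2
    exact one_ne_zero h2
  · rintro ⟨k, rfl⟩
    rw [add_pow_char_pow, one_pow, add_assoc, CharTwo.add_self_eq_zero, add_zero]

theorem mem_line_iff (n : ℕ) :
    eval ((evalMap charTwoMap)^[n] 1) (X 0 + X 1 - 1) = 0 ↔ ∃ k, n = 2 ^ k := by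
  rw [iterate_charTwoMap, map_sub, map_add, map_one, eval_X, eval_X, Matrix.cons_val_zero,
    Matrix.cons_val_one, Matrix.cons_val_zero, sub_eq_zero, ← polynomial_add_pow_eq_one_iff]
  have e : (1 + paramT) ^ n + paramT ^ n =
      algebraMap (Polynomial (ZMod 2)) _ ((1 + Polynomial.X) ^ n + Polynomial.X ^ n) := by simp
  rw [e]
  exact ⟨fun h => IsFractionRing.injective (Polynomial (ZMod 2)) (RatFunc (ZMod 2))
    (h.trans (map_one _).symm), fun h => by rw [h, map_one]⟩

theorem not_eventually_periodic (N M : ℕ) (hN : 0 < N) :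
    ∃ n, M ≤ n ∧ ¬(eval ((evalMap charTwoMap)^[n] 1) (X 0 + X 1 - 1) = 0 ↔
      eval ((evalMap charTwoMap)^[n + N] 1) (X 0 + X 1 - 1) = 0) := by
  refine ⟨2 ^ (M + N), le_trans (by omega) (Nat.lt_two_pow_self).le, ?_⟩
  rw [mem_line_iff, mem_line_iff]
  intro h
  obtain ⟨j, hj⟩ := h.1 ⟨_, rfl⟩
  have hlt : N < 2 ^ (M + N) := lt_of_lt_of_le Nat.lt_two_pow_self
    (Nat.pow_le_pow_right two_pos (by omega))
  have h1 : M + N < j := (Nat.pow_lt_pow_iff_right one_lt_two).1 (by omega)
  have h2 := Nat.pow_le_pow_right two_pos (Nat.succ_le_of_lt h1)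
  rw [pow_succ] at h2
  omega

end FA.DynamicalMordellLang

end
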